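/-
S36, modular part, block S0, task S36-MOD-E3 (owner helper79, sub-architect helper156).

General descent of embeddings from `ℚ̄` to a subfield `K` of `ℚ̄` (abstract field `K` with
`[Algebra K ℚ̄]`).
-/
import Fermat.Agent.S36.Mod.Fields
import Fermat.Agent.S18.Descent.HorizontalBC

set_option autoImplicit false
set_option linter.unusedSectionVars false

noncomputable section

namespace Fermat.Agent.S36.Mod

open ModularCurve Fermat.Agent.S24 Fermat.Agent.S18 Fermat.Agent.S18.Descent

variable (K : Type*) [Field K] [Algebra ℚ K] [Algebra K Kbar]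

theorem Descent.baseChangeMap_JK (N d : ℕ) [NeZero d] (hd : d ∣ N) :
    baseChangeMap (modularFunctionFieldFull N) (algebraMap K Kbar) (JK K N d hd) = JF N d hd :=
  Subtype.ext (coeffMap_coeffEmb' (algebraMap K Kbar) (qExpand ℚ d jq))

/-- **General descent lemma**: a `ℚ̄`-embedding of `FN N` in `ℚ̄((t))` which maps the generators to
series with coefficients in `K` restricts to a `K`-embedding of `FK K N` in `K((t))`. -/
theorem exists_descent' (N : ℕ) [NeZero N] (Φ : FN N →ₐ[Kbar] LaurentSeries Kbar)
    (h : ∀ (d : ℕ) [NeZero d] (hd : d ∣ N),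
      ∃ s : LaurentSeries K, coeffMap (algebraMap K Kbar) s = Φ (JF N d hd)) :
    ∃ Φ' : FK K N →ₐ[K] LaurentSeries K, ∀ f : FK K N,
      coeffMap (algebraMap K Kbar) (Φ' f) = Φ (baseChangeMap (modularFunctionFieldFull N) (algebraMap K Kbar) f) := by
  have hinj : Function.Injective (coeffMap (algebraMap K Kbar)) :=
    coeffMap_injective _ (algebraMap K Kbar).injective
  let Ψ : FK K N →+* LaurentSeries Kbar :=
    (Φ : FN N →+* LaurentSeries Kbar).comp
      (baseChangeMap (modularFunctionFieldFull N) (algebraMap K Kbar))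
  have hΨ : ∀ f, Φ (baseChangeMap (modularFunctionFieldFull N) (algebraMap K Kbar) f) = Ψ f :=
    fun _ => rfl
  simp only [hΨ]
  have hconst : ∀ c : K, coeffMap (algebraMap K Kbar) (algebraMap K (LaurentSeries K) c) =
      Ψ (algebraMap K (FK K N) c) := by
    intro c
    rw [← hΨ, baseChangeMap_algebraMap, coeffMap_algebraMap']
    exact (Φ.commutes (algebraMap K Kbar c)).symm
  have claim : ∀ f : FK K N, ∃ s : LaurentSeries K, coeffMap (algebraMap K Kbar) s = Ψ f := by
    intro f
    induction f using FK_induction with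
    | hJ d _ hd =>
      rw [← hΨ, Descent.baseChangeMap_JK]
      exact h d hd
    | hc c => exact ⟨_, hconst c⟩
    | hadd f g hf hg =>
      obtain ⟨s, hs⟩ := hf
      obtain ⟨t, ht⟩ := hg
      exact ⟨s + t, by rw [RingHom.map_add, RingHom.map_add, hs, ht]⟩
    | hneg f hf =>
      obtain ⟨s, hs⟩ := hf
      exact ⟨-s, by rw [RingHom.map_neg, RingHom.map_neg, hs]⟩
    | hmul f g hf hg =>
      obtain ⟨s, hs⟩ := hf
      obtain ⟨t, ht⟩ := hg
      exact ⟨s * t, by rw [RingHom.map_mul, RingHom.map_mul, hs, ht]⟩
    | hinv f hf =>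
      obtain ⟨s, hs⟩ := hf
      exact ⟨s⁻¹, by rw [map_inv₀, map_inv₀, hs]⟩
  choose s hs using claim
  refine ⟨{ toFun := s
            map_one' := hinj (by rw [hs, RingHom.map_one, RingHom.map_one])
            map_mul' := fun f g => hinj (by rw [hs, RingHom.map_mul, RingHom.map_mul, hs, hs])
            map_zero' := hinj (by rw [hs, RingHom.map_zero, RingHom.map_zero])
            map_add' := fun f g => hinj (by rw [hs, RingHom.map_add, RingHom.map_add, hs, hs])
            commutes' := fun c => hinj (by rw [hs, hconst]) }, hs⟩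

end Fermat.Agent.S36.Mod

end
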